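import Fermat.Agent.S17.H17.HGauss
import Fermat.Agent.S17.H35.ContractPkg
import Fermat.Agent.S17.H290.OrdDiff
import Fermat.Agent.S17.H680.DescentRR

/-!
# S17 / tower H, piece GAUSS⁺ (helper827, subtask 671): the `Rt`-bridge

TOP needs (GAUSS) in the form `H35.GaussRtStatement E Rt c` for an EFFECTIVE GALOIS-INVARIANT
divisor `Rt` prime to `∞` with `deg Rt = 2g − 2 + c`.  The frozen output of the GAUSS
sub-project is `HContract.GAUSSCanStatement E` (`S17/H17/HGauss.lean`).  This file is the bridge.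

`t` a non-constant function with poles at `∞` only, `W = div(dt)`, `c = −W(∞)`,
`Rt = W + c ∞`:

* `ord_neg_of_mem_L`, `ord_nonneg_of_mem_L` : `t` has a pole at `∞` and is regular elsewhere;
* `kaehlerD_ne_zero`                         : `dt ≠ 0`;
* `exists_Rt`        : `Rt ≥ 0`, `Rt(∞) = 0`, `deg Rt = 2g − 2 + c`, `Rt − c∞ = div(dt)` and
                       `GaussRtStatement E Rt c`, from `GAUSSCanStatement E`   (any `K`);
* `ordDifferential_smul_of_fixed` : `ord_{g v}(dt) = ord_v(dt)` for a semilinear automorphism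
                       `g` fixing `t`;
* `isInvariant_of_fixed` : the divisor of `dt` is Galois-invariant for a Galois-fixed `t`;
* `exists_Rt_invariant`  : the bridge, for `F = ℚ̄ F₀` and a Galois-fixed `t`.
-/

set_option autoImplicit false

noncomputable section

open AlgebraicCurve KaehlerDifferential

namespace Fermat.Agent.S17.H827

open Fermat.Agent.Lib.RR Fermat.Agent.S17.HWall Fermat.Agent.S17.HContract
open Fermat.Agent.S17.H35 Fermat.Agent.S17.H290 Fermat.Agent.S24 Fermat.Agent.S24.H84

section General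

variable {K F : Type*} [Field K] [CharZero K] [IsAlgClosed K] [Field F] [Algebra K F] [FF1 K F]

omit [CharZero K] [IsAlgClosed K] [FF1 K F] in
/-- a function of `L(k ∞)` is regular away from `∞` -/
theorem ord_nonneg_of_mem_L {vinf : Place K F} {k : ℕ} {t : F}
    (htL : t ∈ riemannRochSpace (k • prim vinf)) (ht0 : t ≠ 0) {v : Place K F}
    (hv : v ≠ vinf) : 0 ≤ v.ord t := by
  rw [mem_riemannRochSpace_iff] at htL
  rcases htL v with h1 | h1
  · exact absurd h1 ht0
  · rw [Finsupp.smul_apply, prim_apply_of_ne hv] at h1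
    simpa using h1

omit [CharZero K] [IsAlgClosed K] in
/-- a non-constant function of `L(k ∞)` has a pole at `∞` -/
theorem ord_neg_of_mem_L {vinf : Place K F} {k : ℕ} {t : F}
    (htL : t ∈ riemannRochSpace (k • prim vinf))
    (htnc : t ∉ Set.range (algebraMap K F)) : vinf.ord t < 0 := by
  by_contra h
  rw [not_lt] at h
  apply htnc
  have ht0 : t ≠ 0 := fun h0 => htnc ⟨0, by rw [h0, map_zero]⟩
  have h0 : t ∈ riemannRochSpace (0 : Divisor K F) := by
    rw [mem_riemannRochSpace_iff]
    intro v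
    right
    rw [Finsupp.zero_apply, neg_zero]
    by_cases hv : v = vinf
    · rw [hv]; exact h
    · exact ord_nonneg_of_mem_L htL ht0 hv
  rw [L_zero] at h0
  obtain ⟨c, hc⟩ := h0
  exact ⟨c, hc⟩

/-- a function with a pole is not a constant, so its differential is not zero -/
theorem kaehlerD_ne_zero {v : Place K F} {t : F} (ht : v.ord t ≠ 0) : D K F t ≠ 0 := by
  obtain ⟨j, hjtr, hjfin⟩ := FF1.exists_finite (K := K) (F := F)
  have := hjfin
  have htr : Transcendental K t := place_transcendental_of_ord_ne_zero v ht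
  have := isAlgebraic_adjoin_simple_of_transcendental j htr
  have hspan := span_D_eq_top (K := K) (F := F) t
  intro h0
  obtain ⟨ω, hω⟩ := Fermat.Agent.Lib.RR.H80.exists_kaehler_ne_zero K F
  have hmem : ω ∈ Submodule.span F {D K F t} := by rw [hspan]; trivial
  rw [h0] at hmem
  have : ω = 0 := by simpa using hmem
  exact hω this

/-- the order of `dt` at a place where `t` is regular, `t` not constant -/
theorem exists_ordDifferential_eq {t : F} (htnc : t ∉ Set.range (algebraMap K F))
    (v : Place K F) (hv : 0 ≤ v.ord t) :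
    ∃ a : K, 0 < v.ord (t - algebraMap K F a) ∧
      v.ordDifferential (D K F t) = v.ord (t - algebraMap K F a) - 1 := by
  obtain ⟨j, hjtr, hjfin⟩ := FF1.exists_finite (K := K) (F := F)
  have : FF.IsCoord K j := ⟨hjtr, hjfin⟩
  obtain ⟨a, ha | ha⟩ := exists_const_sub v (deg_eq_one v) hv
  · exact absurd ⟨a, (sub_eq_zero.mp ha).symm⟩ htnc
  · exact ⟨a, ha, ordDifferential_D_of_ord_sub_ne_zero j v t a ha.ne'⟩

/-- `dt` is regular where `t` is -/
theorem ordDifferential_nonneg {t : F} (htnc : t ∉ Set.range (algebraMap K F))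
    (v : Place K F) (hv : 0 ≤ v.ord t) : 0 ≤ v.ordDifferential (D K F t) := by
  obtain ⟨a, ha, h⟩ := exists_ordDifferential_eq htnc v hv
  omega

/-- the order of `dt` at a pole of `t` -/
theorem ordDifferential_of_neg {t : F} (v : Place K F) (hv : v.ord t < 0) :
    v.ordDifferential (D K F t) = v.ord t - 1 := by
  obtain ⟨j, hjtr, hjfin⟩ := FF1.exists_finite (K := K) (F := F)
  have : FF.IsCoord K j := ⟨hjtr, hjfin⟩
  exact ordDifferential_D_of_ord_ne_zero j v t hv.ne

/-- **The `Rt`-bridge, geometric part.**  For a non-constant `t ∈ L(k ∞)`: with `W = div(dt)`,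
`c = −W(∞)` and `Rt = W + c ∞` one has `Rt ≥ 0`, `Rt(∞) = 0`, `deg Rt = 2g − 2 + c`, and
`GAUSSCanStatement` gives `GaussRtStatement E Rt c`. -/
theorem exists_Rt (E : EmbData K F) {k : ℕ} {t : F}
    (htL : t ∈ riemannRochSpace (k • prim E.vinf))
    (htnc : t ∉ Set.range (algebraMap K F)) (hG : GAUSSCanStatement E) :
    ∃ (Rt : Divisor K F) (c : ℕ), 0 ≤ Rt ∧ Rt E.vinf = 0 ∧
      Divisor.degree Rt = 2 * (genusR K F : ℤ) - 2 + c ∧
      (∀ v : Place K F, (Rt - (c : ℤ) • prim E.vinf) v = v.ordDifferential (D K F t)) ∧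
      GaussRtStatement E Rt c := by
  have ht0 : t ≠ 0 := fun h0 => htnc ⟨0, by rw [h0, map_zero]⟩
  have hpole : E.vinf.ord t < 0 := ord_neg_of_mem_L htL htnc
  have hω : D K F t ≠ 0 := kaehlerD_ne_zero hpole.ne
  obtain ⟨W, hW, -⟩ := Fermat.Agent.Lib.RR.H80.exists_canonical_kaehler (D K F t) hω
  have hdeg : Divisor.degree W = 2 * (genusR K F : ℤ) - 2 := by
    rw [Fermat.Agent.Lib.RR.H80.degree_kaehler hω hW, genusFF_eq_genusR]
  have hWinf : W E.vinf = E.vinf.ord t - 1 := by
    rw [hW, ordDifferential_of_neg E.vinf hpole]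
  -- the pole order of `dt` at `∞`
  obtain ⟨c, hc⟩ : ∃ c : ℕ, (c : ℤ) = - W E.vinf :=
    ⟨(- W E.vinf).toNat, Int.toNat_of_nonneg (by omega)⟩
  have hsub : W + c • prim E.vinf - (c : ℤ) • prim E.vinf = W := by
    rw [natCast_zsmul, add_sub_cancel_right]
  refine ⟨W + c • prim E.vinf, c, ?_, ?_, ?_, ?_, ?_⟩
  · rw [Finsupp.le_def]
    intro v
    rw [Finsupp.zero_apply, Finsupp.add_apply, Finsupp.smul_apply]
    by_cases hv : v = E.vinf
    · rw [hv, prim_apply_self, nsmul_eq_mul, mul_one, hc]
      omega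
    · rw [prim_apply_of_ne hv, smul_zero, add_zero, hW]
      exact ordDifferential_nonneg htnc v (ord_nonneg_of_mem_L htL ht0 hv)
  · rw [Finsupp.add_apply, Finsupp.smul_apply, prim_apply_self, nsmul_eq_mul, mul_one, hc]
    omega
  · rw [map_add, map_nsmul, degree_prim _ (deg_eq_one _), hdeg, nsmul_eq_mul, mul_one]
  · intro v
    rw [hsub, hW]
  · obtain ⟨C, hC⟩ := hG (D K F t) W hω hW
    refine gaussRt_of E _ _ ⟨C, fun P hP => ?_⟩
    rw [hsub] at hP ⊢
    exact hC P hP

/-- The order of `dt` is invariant under a semilinear automorphism fixing `t`. -/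
theorem ordDifferential_smul_of_fixed (g : SemilinearAut K F) {t : F} (hgt : g • t = t)
    (htnc : t ∉ Set.range (algebraMap K F)) (v : Place K F) :
    (g • v).ordDifferential (D K F t) = v.ordDifferential (D K F t) := by
  have hord : ∀ f : F, g • f = f → (g • v).ord f = v.ord f := fun f hf => by
    have := SemilinearAut.ord_smul g v f
    rwa [hf] at this
  rcases lt_or_ge (v.ord t) 0 with h | h
  · have h' : (g • v).ord t < 0 := by rw [hord t hgt]; exact h
    rw [ordDifferential_of_neg v h, ordDifferential_of_neg (g • v) h', hord t hgt]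
  · obtain ⟨a, ha, hva⟩ := exists_ordDifferential_eq htnc v h
    have hsm : g • (t - algebraMap K F a) = t - algebraMap K F (SemilinearAut.baseAut g a) := by
      rw [smul_sub, hgt, SemilinearAut.smul_algebraMap]
    have hord' : (g • v).ord (t - algebraMap K F (SemilinearAut.baseAut g a))
        = v.ord (t - algebraMap K F a) := by
      rw [← hsm, SemilinearAut.ord_smul]
    obtain ⟨j, hjtr, hjfin⟩ := FF1.exists_finite (K := K) (F := F)
    have : FF.IsCoord K j := ⟨hjtr, hjfin⟩
    rw [hva, ordDifferential_D_of_ord_sub_ne_zero j (g • v) t (SemilinearAut.baseAut g a)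
      (by rw [hord']; exact ha.ne'), hord']

/-- The divisor of `dt` is invariant under a semilinear automorphism fixing `t`. -/
theorem smul_divisor_of_fixed (g : SemilinearAut K F) {t : F} (hgt : g • t = t)
    (htnc : t ∉ Set.range (algebraMap K F)) {W : Divisor K F}
    (hW : ∀ v : Place K F, W v = v.ordDifferential (D K F t)) : g • W = W := by
  ext w
  have hinv : g⁻¹ • t = t := by
    rw [inv_smul_eq_iff, hgt]
  rw [SemilinearAut.divisor_smul_apply, hW, hW, ordDifferential_smul_of_fixed g⁻¹ hinv htnc]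

end General

section Galois

open ModularCurve Fermat.Agent.S17.H680 Fermat.Agent.S17.H77

variable (F₀ : IntermediateField ℚ (LaurentSeries ℚ)) [FF1 Qb (laurentBaseChange Qb F₀)]

/-- **The `Rt`-bridge** (GAUSS⁺): from the frozen output `GAUSSCanStatement E` of the GAUSS
sub-project and a Galois-fixed non-constant function `t` with poles at `∞` only, an effective
Galois-invariant divisor `Rt` prime to `∞` with `deg Rt = 2g − 2 + c` and
`GaussRtStatement E Rt c`  (`Rt − c ∞ = div(dt)`). -/
theorem exists_Rt_invariant (E : EmbData Qb (laurentBaseChange Qb F₀))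
    (hinf : IsInvariant F₀ (prim E.vinf)) {k : ℕ} {t : laurentBaseChange Qb F₀}
    (htL : t ∈ riemannRochSpace (k • prim E.vinf)) (htfix : IsFixed F₀ t)
    (htnc : t ∉ Set.range (algebraMap Qb (laurentBaseChange Qb F₀)))
    (hG : GAUSSCanStatement E) :
    ∃ (Rt : Divisor Qb (laurentBaseChange Qb F₀)) (c : ℕ),
      0 ≤ Rt ∧ IsInvariant F₀ Rt ∧ Rt E.vinf = 0 ∧
      Divisor.degree Rt = 2 * (genusR Qb (laurentBaseChange Qb F₀) : ℤ) - 2 + c ∧
      GaussRtStatement E Rt c := by
  obtain ⟨Rt, c, h0, hinf0, hdeg, hW, hGRt⟩ := exists_Rt E htL htnc hG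
  refine ⟨Rt, c, h0, fun σ => ?_, hinf0, hdeg, hGRt⟩
  have h1 := smul_divisor_of_fixed (arithmeticGalois F₀ σ) (htfix σ) htnc hW
  have h2 : arithmeticGalois F₀ σ • ((c : ℤ) • prim E.vinf) = (c : ℤ) • prim E.vinf := by
    rw [smul_comm, hinf σ]
  have h3 : Rt = (Rt - (c : ℤ) • prim E.vinf) + (c : ℤ) • prim E.vinf := by abel
  rw [h3, smul_add, h1, h2]

end Galois

end Fermat.Agent.S17.H827
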