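import Fermat.Agent.S17.H827.GaussRt
import Fermat.Agent.S17.H680.Rational

/-!
# S17 / tower H, piece GAUSS⁺ (helper827, subtask 671): the `Rt`-bridge for `J₀(N)`

`exists_Rt_JZero` : for every embedding `E` of `X₀(N)` at the cusp `∞`, the frozen output
`HContract.GAUSSCanStatement E` of the GAUSS sub-project gives the data `Rt` of
`H736.TopInput N` (effective, Galois-invariant, prime to `∞`) together with the hypothesis
`GaussRtStatement E Rt (deg Rt − (2g − 2))` of `H35.gauss`.
(`Rt` = the zeros of `dt`, `t = H680.JZero.exists_rational_coordinate`.)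
-/

set_option autoImplicit false

noncomputable section

open AlgebraicCurve ModularCurve

namespace Fermat.Agent.S17.H827

open Fermat.Agent.Lib.RR Fermat.Agent.S17.HWall Fermat.Agent.S17.HContract
open Fermat.Agent.S17.H35 Fermat.Agent.S17.H680 Fermat.Agent.S17.H77

variable (N : ℕ) [NeZero N]

/-- **GAUSS⁺ for `J₀(N)`**: the ramification divisor `Rt` of TOP and (GAUSS) at `Rt − c ∞`. -/
theorem exists_Rt_JZero (E : EmbData (AlgebraicClosure ℚ) (modularFunctionFieldBar N))
    (hvinf : E.vinf = JZero.cusp N) (hG : GAUSSCanStatement E) :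
    ∃ Rt : Divisor (AlgebraicClosure ℚ) (modularFunctionFieldBar N),
      0 ≤ Rt ∧ IsInvariant (modularFunctionFieldFull N) Rt ∧ Rt (JZero.cusp N) = 0 ∧
      GaussRtStatement E Rt
        (Divisor.degree Rt -
          (2 * (genusR (AlgebraicClosure ℚ) (modularFunctionFieldBar N) : ℤ) - 2)) := by
  obtain ⟨t, htL, htfix, htnc⟩ := JZero.exists_rational_coordinate N
  have hinf : IsInvariant (modularFunctionFieldFull N) (prim E.vinf) := by
    intro σ
    rw [hvinf, smul_prim, JZero.galois_smul_cusp]
  rw [← hvinf] at htL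
  obtain ⟨Rt, c, h0, hinv, hRinf, hdeg, hGRt⟩ :=
    exists_Rt_invariant (modularFunctionFieldFull N) E hinf htL htfix htnc hG
  refine ⟨Rt, h0, hinv, by rw [← hvinf]; exact hRinf, ?_⟩
  have hc : Divisor.degree Rt -
      (2 * (genusR (AlgebraicClosure ℚ) (modularFunctionFieldBar N) : ℤ) - 2) = (c : ℤ) := by
    rw [hdeg]; ring
  rw [hc]
  exact hGRt

end Fermat.Agent.S17.H827
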